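/-
Program MW (S17), height part H, brick F1 "FormalQuadratic" (helper2).

Abstract form of "the self-pairing of bounded representatives is quasi-quadratic":
`formalQuadratic : Bricks7.FormalQuadratic`.  With `a = rep x`, `b = rep y`, `s = rep (x+y)`,
`d = rep (x-y)` one has `s = (a+b) + p`, `d = (a-b) + p'` with `p, p'` principal of norm `≤ 3R`,
`B s s = B (a+b) (a+b) + B p (a+b) + B p s` and the parallelogram identity for `B`; the defect is
at most `4 C ≤ 6 C`.
-/
import Mathlib
import Fermat.Agent.MW.Spec.Bricks7

set_option autoImplicit false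

namespace Fermat.Agent.MW.Formal.Quadratic2

open Fermat.Agent.MW.Spec.Bricks7

section

variable {Z : Type*} [AddCommGroup Z] (B : Z → Z → ℝ)

/-- consequences of symmetry and additivity in the first variable. -/
theorem map_zero_left (hadd : ∀ a b c, B (a + b) c = B a c + B b c) (c : Z) : B 0 c = 0 := by
  have := hadd 0 0 c
  rw [add_zero] at this
  linarith

theorem map_neg_left (hadd : ∀ a b c, B (a + b) c = B a c + B b c) (a c : Z) :
    B (-a) c = -B a c := by
  have := hadd a (-a) c
  rw [add_neg_cancel, map_zero_left B hadd] at this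
  linarith

theorem map_sub_left (hadd : ∀ a b c, B (a + b) c = B a c + B b c) (a b c : Z) :
    B (a - b) c = B a c - B b c := by
  rw [sub_eq_add_neg, hadd, map_neg_left B hadd]
  ring

theorem map_add_right (hsymm : ∀ a b, B a b = B b a)
    (hadd : ∀ a b c, B (a + b) c = B a c + B b c) (a b c : Z) :
    B a (b + c) = B a b + B a c := by
  rw [hsymm a (b + c), hadd, hsymm b a, hsymm c a]

theorem map_sub_right (hsymm : ∀ a b, B a b = B b a)
    (hadd : ∀ a b c, B (a + b) c = B a c + B b c) (a b c : Z) :
    B a (b - c) = B a b - B a c := by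
  rw [hsymm a (b - c), map_sub_left B hadd, hsymm b a, hsymm c a]

/-- the parallelogram identity for a symmetric biadditive form. -/
theorem parallelogram (hsymm : ∀ a b, B a b = B b a)
    (hadd : ∀ a b c, B (a + b) c = B a c + B b c) (a b : Z) :
    B (a + b) (a + b) + B (a - b) (a - b) = 2 * (B a a + B b b) := by
  rw [hadd, map_add_right B hsymm hadd, map_add_right B hsymm hadd, map_sub_left B hadd,
    map_sub_right B hsymm hadd, map_sub_right B hsymm hadd, hsymm b a]
  ring

/-- perturbation of the diagonal: `B (u + p) (u + p) = B u u + B p u + B p (u + p)`. -/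
theorem diag_add (hsymm : ∀ a b, B a b = B b a)
    (hadd : ∀ a b c, B (a + b) c = B a c + B b c) (u p : Z) :
    B (u + p) (u + p) = B u u + B p u + B p (u + p) := by
  rw [hadd u p (u + p), map_add_right B hsymm hadd u u p, hsymm u p]

end

/-- **Brick F1**: the self-pairing of bounded representatives is quasi-quadratic. -/
theorem formalQuadratic : FormalQuadratic := by
  intro Z G _ _ B nrm cl rep R C hsymm hadd hn0 hntri hnneg hcl hrep hker x y
  set a := rep x with ha
  set b := rep y with hb
  set s := rep (x + y) with hs
  set d := rep (x - y) with hd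
  have hR0 : 0 ≤ R := (hn0 a).trans (hrep x)
  have hnsub : ∀ u w : Z, nrm (u - w) ≤ nrm u + nrm w := by
    intro u w
    rw [sub_eq_add_neg]
    exact (hntri u (-w)).trans (by rw [hnneg])
  -- the two principal corrections
  set p := s - (a + b) with hp
  set p' := d - (a - b) with hp'
  have hclp : cl p = 0 := by
    rw [hp, map_sub, map_add, hs, ha, hb, hcl, hcl, hcl, sub_self]
  have hclp' : cl p' = 0 := by
    rw [hp', map_sub, map_sub, hd, ha, hb, hcl, hcl, hcl, sub_self]
  have hnab : nrm (a + b) ≤ 2 * R := by
    have := hntri a b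
    have h1 := hrep x
    have h2 := hrep y
    linarith
  have hnab' : nrm (a - b) ≤ 2 * R := by
    have := hnsub a b
    have h1 := hrep x
    have h2 := hrep y
    linarith
  have hnp : nrm p ≤ 3 * R := by
    have := hnsub s (a + b)
    have h1 := hrep (x + y)
    linarith
  have hnp' : nrm p' ≤ 3 * R := by
    have := hnsub d (a - b)
    have h1 := hrep (x - y)
    linarith
  have hns : nrm s ≤ 3 * R := by
    have h1 := hrep (x + y)
    linarith
  have hnd : nrm d ≤ 3 * R := by
    have h1 := hrep (x - y)
    linarith
  have hs' : s = (a + b) + p := by rw [hp]; abel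
  have hd' : d = (a - b) + p' := by rw [hp']; abel
  have e1 : B s s = B (a + b) (a + b) + B p (a + b) + B p s := by
    conv_lhs => rw [hs']
    rw [diag_add B hsymm hadd, ← hs']
  have e2 : B d d = B (a - b) (a - b) + B p' (a - b) + B p' d := by
    conv_lhs => rw [hd']
    rw [diag_add B hsymm hadd, ← hd']
  have b1 := hker p (a + b) hclp hnp (by linarith)
  have b2 := hker p s hclp hnp hns
  have b3 := hker p' (a - b) hclp' hnp' (by linarith)
  have b4 := hker p' d hclp' hnp' hnd
  have hpar := parallelogram B hsymm hadd a b
  have hC0 : 0 ≤ C := (abs_nonneg _).trans b1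
  have key : (-B s s) + (-B d d) - 2 * ((-B a a) + (-B b b)) =
      -(B p (a + b) + B p s + B p' (a - b) + B p' d) := by
    rw [e1, e2]
    linarith
  rw [key, abs_neg]
  have t1 := abs_add_le (B p (a + b) + B p s + B p' (a - b)) (B p' d)
  have t2 := abs_add_le (B p (a + b) + B p s) (B p' (a - b))
  have t3 := abs_add_le (B p (a + b)) (B p s)
  linarith

end Fermat.Agent.MW.Formal.Quadratic2
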