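/-
Program MW (S17), chapter Formal (helper8): the FORMAL part of the height argument
("Delta-pairing" design, reports #255/#292/#306).

Abstract setting: a type `Pt` of points (later: places of the function field of `X₀(N)` over `ℚ̄`),
divisors `Pt →₀ ℤ`, a symmetric kernel `k : Pt → Pt → ℝ` (global height of the diagonal of `X × X`,
with regularised diagonal values `k P P`), its biadditive extension `pairing k` to divisors, and a
set `Prin` of principal divisors of bounded mass with the "normalisation constant" `c f`.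

Inputs (to be supplied by the arithmetic chapters):
* `ud`  (uniform decomposition): `|⟪f, Q⟫ - c f| ≤ C₀` for all principal `f` (bounded mass), all `Q`;
* `adj` (adjunction): `|κ f + (2g - 2) c f| ≤ C₁` where `κ f = ∑ f(P) k P P`.

Output: for `A = (2g-1)∞`, the quadratic polynomial `Q D = ⟪A,D⟫ + κ D / 2 - ⟪D,D⟫ / 2` on the GROUP of
divisors is invariant (up to a constant) under adding principal divisors to divisors of degree `g`;
hence `h x = Q (rep x) + Q (rep (-x))` satisfies the approximate parallelogram law, and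
Mathlib's descent theorem gives finite generation once `G / 2G` is finite and `Q (rep x)` dominates
a Northcott function.
-/
import Mathlib

set_option autoImplicit false

namespace Fermat.Agent.MW.Formal.DeltaPairing8

open Finsupp

noncomputable section

variable {Pt : Type*}

/-- The biadditive extension of a kernel `k : Pt → Pt → ℝ` to divisors. -/
def pairing (k : Pt → Pt → ℝ) : (Pt →₀ ℤ) →ₗ[ℤ] (Pt →₀ ℤ) →ₗ[ℤ] ℝ :=
  Finsupp.lift ((Pt →₀ ℤ) →ₗ[ℤ] ℝ) ℤ Pt fun P => Finsupp.lift ℝ ℤ Pt fun Q => k P Q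

/-- The additive extension of the diagonal values `k P P` to divisors. -/
def diag (k : Pt → Pt → ℝ) : (Pt →₀ ℤ) →ₗ[ℤ] ℝ :=
  Finsupp.lift ℝ ℤ Pt fun P => k P P

/-- The mass `∑ |D(P)|` of a divisor. -/
def mass (D : Pt →₀ ℤ) : ℝ := ∑ P ∈ D.support, |((D P : ℤ) : ℝ)|

theorem pairing_single_single (k : Pt → Pt → ℝ) (P Q : Pt) (m n : ℤ) :
    pairing k (single P m) (single Q n) = (m : ℝ) * ((n : ℝ) * k P Q) := by
  simp [pairing, Finsupp.lift_apply, mul_comm, mul_left_comm]

theorem diag_single (k : Pt → Pt → ℝ) (P : Pt) (m : ℤ) :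
    diag k (single P m) = (m : ℝ) * k P P := by
  simp [diag, Finsupp.lift_apply]

theorem pairing_symm {k : Pt → Pt → ℝ} (hk : ∀ P Q, k P Q = k Q P) (D E : Pt →₀ ℤ) :
    pairing k D E = pairing k E D := by
  induction D using Finsupp.induction_linear with
  | zero => simp
  | add D₁ D₂ h₁ h₂ => simp [map_add, h₁, h₂]
  | single P m =>
    induction E using Finsupp.induction_linear with
    | zero => simp
    | add E₁ E₂ h₁ h₂ => simp [map_add, h₁, h₂]
    | single Q n =>
      rw [pairing_single_single, pairing_single_single, hk P Q]; ring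

theorem mass_nonneg (D : Pt →₀ ℤ) : 0 ≤ mass D :=
  Finset.sum_nonneg fun _ _ => abs_nonneg _

theorem mass_single_le (P : Pt) (m : ℤ) : mass (single P m) ≤ |(m : ℝ)| := by
  classical
  unfold mass
  by_cases hm : m = 0
  · simp [hm]
  · simp [Finsupp.support_single, hm]

theorem mass_add_le (D E : Pt →₀ ℤ) : mass (D + E) ≤ mass D + mass E := by
  classical
  unfold mass
  have hsub : (D + E).support ⊆ D.support ∪ E.support := Finsupp.support_add
  calc ∑ P ∈ (D + E).support, |(((D + E) P : ℤ) : ℝ)|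
      ≤ ∑ P ∈ D.support ∪ E.support, |(((D + E) P : ℤ) : ℝ)| :=
        Finset.sum_le_sum_of_subset_of_nonneg hsub fun _ _ _ => abs_nonneg _
    _ ≤ ∑ P ∈ D.support ∪ E.support, (|((D P : ℤ) : ℝ)| + |((E P : ℤ) : ℝ)|) := by
        refine Finset.sum_le_sum fun P _ => ?_
        rw [Finsupp.add_apply]; push_cast; exact abs_add_le _ _
    _ = ∑ P ∈ D.support ∪ E.support, |((D P : ℤ) : ℝ)|
          + ∑ P ∈ D.support ∪ E.support, |((E P : ℤ) : ℝ)| := Finset.sum_add_distrib
    _ = ∑ P ∈ D.support, |((D P : ℤ) : ℝ)| + ∑ P ∈ E.support, |((E P : ℤ) : ℝ)| := by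
        congr 1
        · refine (Finset.sum_subset Finset.subset_union_left fun P _ hP => ?_).symm
          simp [Finsupp.notMem_support_iff.mp hP]
        · refine (Finset.sum_subset Finset.subset_union_right fun P _ hP => ?_).symm
          simp [Finsupp.notMem_support_iff.mp hP]

theorem mass_neg (D : Pt →₀ ℤ) : mass (-D) = mass D := by
  unfold mass
  rw [Finsupp.support_neg]
  refine Finset.sum_congr rfl fun P _ => ?_
  rw [Finsupp.neg_apply]; push_cast; exact abs_neg _

theorem mass_sub_le (D E : Pt →₀ ℤ) : mass (D - E) ≤ mass D + mass E := by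
  rw [sub_eq_add_neg]
  exact (mass_add_le D (-E)).trans (by rw [mass_neg])

/-- A linear functional which is within `C` of the constant `c` on all points is within `C * mass E`
of `deg E * c` on every divisor `E`. -/
theorem abs_apply_sub_degree_mul_le (L : (Pt →₀ ℤ) →ₗ[ℤ] ℝ) (c C : ℝ)
    (hL : ∀ Q, |L (single Q 1) - c| ≤ C) (E : Pt →₀ ℤ) :
    |L E - (Finsupp.degree E : ℤ) * c| ≤ C * mass E := by
  classical
  have hE : L E = ∑ P ∈ E.support, ((E P : ℤ) : ℝ) * L (single P 1) := by
    conv_lhs => rw [← Finsupp.sum_single E]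
    rw [Finsupp.sum, map_sum]
    refine Finset.sum_congr rfl fun P _ => ?_
    have : single P (E P) = (E P) • single P (1 : ℤ) := by
      rw [Finsupp.smul_single, smul_eq_mul, mul_one]
    rw [this, map_smul, zsmul_eq_mul]
  have hdeg : ((Finsupp.degree E : ℤ) : ℝ) = ∑ P ∈ E.support, ((E P : ℤ) : ℝ) := by
    rw [Finsupp.degree_apply]; push_cast; rfl
  rw [hE, hdeg, Finset.sum_mul, ← Finset.sum_sub_distrib]
  calc |∑ P ∈ E.support, (((E P : ℤ) : ℝ) * L (single P 1) - ((E P : ℤ) : ℝ) * c)|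
      ≤ ∑ P ∈ E.support, |((E P : ℤ) : ℝ) * L (single P 1) - ((E P : ℤ) : ℝ) * c| :=
        Finset.abs_sum_le_sum_abs _ _
    _ ≤ ∑ P ∈ E.support, C * |((E P : ℤ) : ℝ)| := by
        refine Finset.sum_le_sum fun P _ => ?_
        rw [← mul_sub, abs_mul, mul_comm]
        exact mul_le_mul_of_nonneg_right (hL P) (abs_nonneg _)
    _ = C * mass E := by rw [mass, Finset.mul_sum]

/-- The quadratic polynomial `Q_A(D) = ⟪A,D⟫ + κ(D)/2 - ⟪D,D⟫/2` on the group of divisors. -/
def quad (k : Pt → Pt → ℝ) (A D : Pt →₀ ℤ) : ℝ :=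
  pairing k A D + diag k D / 2 - pairing k D D / 2

/-- `Q` is a polynomial of degree two: the second difference is the pairing. -/
theorem quad_add_add_quad_sub {k : Pt → Pt → ℝ} (hk : ∀ P Q, k P Q = k Q P) (A D E : Pt →₀ ℤ) :
    quad k A (D + E) + quad k A (D - E) = 2 * quad k A D - pairing k E E := by
  unfold quad
  simp only [map_add, map_sub, LinearMap.add_apply, LinearMap.sub_apply]
  rw [pairing_symm hk E D]
  ring

/-- The change of `Q` under translation by `f`. -/
theorem quad_add_sub_quad {k : Pt → Pt → ℝ} (hk : ∀ P Q, k P Q = k Q P) (A D f : Pt →₀ ℤ) :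
    quad k A (D + f) - quad k A D
      = pairing k f A + diag k f / 2 - pairing k f D - pairing k f f / 2 := by
  unfold quad
  simp only [map_add, LinearMap.add_apply]
  rw [pairing_symm hk A f, pairing_symm hk D f]
  ring

/-- **Invariance.** If `f` satisfies the uniform decomposition bound `ud` and the adjunction bound
`adj`, `deg f = 0`, `deg A = 2g - 1`, `deg D = g`, then `Q_A (D + f) - Q_A D` is bounded in terms of
the masses only. -/
theorem abs_quad_add_sub_quad_le {k : Pt → Pt → ℝ} (hk : ∀ P Q, k P Q = k Q P)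
    (g : ℤ) (A D f : Pt →₀ ℤ) (c C₀ C₁ : ℝ)
    (hA : Finsupp.degree A = 2 * g - 1) (hD : Finsupp.degree D = g) (hf : Finsupp.degree f = 0)
    (hud : ∀ Q, |pairing k f (single Q 1) - c| ≤ C₀)
    (hadj : |diag k f + (2 * (g : ℝ) - 2) * c| ≤ C₁) :
    |quad k A (D + f) - quad k A D| ≤ C₀ * mass A + C₁ / 2 + C₀ * mass D + C₀ * mass f / 2 := by
  rw [quad_add_sub_quad hk]
  have h1 := abs_apply_sub_degree_mul_le (pairing k f) c C₀ hud A
  have h3 := abs_apply_sub_degree_mul_le (pairing k f) c C₀ hud D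
  have h4 := abs_apply_sub_degree_mul_le (pairing k f) c C₀ hud f
  rw [hA] at h1; rw [hD] at h3; rw [hf] at h4
  push_cast at h1 h3 h4
  rw [abs_le] at h1 h3 h4 hadj ⊢
  constructor <;> nlinarith [h1.1, h1.2, h3.1, h3.2, h4.1, h4.2, hadj.1, hadj.2]

/-- The formal setup: a group `G` (later `J₀(N)(ℚ)`), points, kernel, principal divisors of bounded
mass with their constants, representatives `rep x` (effective of degree `g`, class `x + g∞`). -/
structure Setup (G : Type*) [AddCommGroup G] (Pt : Type*) where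
  /-- the kernel: global diagonal height, regularised on the diagonal -/
  k : Pt → Pt → ℝ
  k_symm : ∀ P Q, k P Q = k Q P
  /-- the genus -/
  genus : ℕ
  /-- the base point -/
  inf : Pt
  /-- principal divisors (of bounded mass) -/
  Prin : Set (Pt →₀ ℤ)
  /-- normalisation constant of a principal divisor -/
  c : (Pt →₀ ℤ) → ℝ
  prin_deg : ∀ f ∈ Prin, Finsupp.degree f = 0
  /-- the mass bound for `Prin` -/
  M : ℝ
  prin_mass : ∀ f ∈ Prin, mass f ≤ M
  C₀ : ℝ
  ud : ∀ f ∈ Prin, ∀ Q, |pairing k f (single Q 1) - c f| ≤ C₀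
  C₁ : ℝ
  adj : ∀ f ∈ Prin, |diag k f + (2 * (genus : ℝ) - 2) * c f| ≤ C₁
  /-- representatives -/
  rep : G → (Pt →₀ ℤ)
  rep_deg : ∀ x, Finsupp.degree (rep x) = (genus : ℤ)
  rep_mass : ∀ x, mass (rep x) ≤ genus
  rep_add : ∀ x y, rep (x + y) - (rep x + (rep y - single inf (genus : ℤ))) ∈ Prin
  rep_sub : ∀ x y, rep (x - y) - (rep x - (rep y - single inf (genus : ℤ))) ∈ Prin

namespace Setup

variable {G : Type*} [AddCommGroup G] (S : Setup G Pt)

/-- `A = (2g-1)∞`. -/
def A : Pt →₀ ℤ := single S.inf (2 * (S.genus : ℤ) - 1)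

/-- `E_y = rep y - g∞`. -/
def E (y : G) : Pt →₀ ℤ := S.rep y - single S.inf (S.genus : ℤ)

/-- `HH x = Q_A (rep x)`. -/
def HH (x : G) : ℝ := quad S.k S.A (S.rep x)

/-- The symmetrised height. -/
def h (x : G) : ℝ := S.HH x + S.HH (-x)

theorem C₀_nonneg [Nonempty Pt] (hne : S.Prin.Nonempty) : 0 ≤ S.C₀ := by
  obtain ⟨f, hf⟩ := hne
  obtain ⟨Q⟩ := ‹Nonempty Pt›
  exact (abs_nonneg _).trans (S.ud f hf Q)

theorem degree_A : Finsupp.degree S.A = 2 * (S.genus : ℤ) - 1 := by
  rw [A, Finsupp.degree_single]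

theorem mass_A_le : mass S.A ≤ 2 * (S.genus : ℝ) + 1 := by
  refine (mass_single_le _ _).trans ?_
  push_cast
  rw [abs_le]
  constructor <;> linarith [(Nat.cast_nonneg S.genus : (0 : ℝ) ≤ S.genus)]

theorem degree_E (y : G) : Finsupp.degree (S.E y) = 0 := by
  simp [E, S.rep_deg]

theorem mass_E_le (y : G) : mass (S.E y) ≤ 2 * (S.genus : ℝ) := by
  refine (mass_sub_le _ _).trans ?_
  have h1 := S.rep_mass y
  have h2 : mass (single S.inf (S.genus : ℤ)) ≤ (S.genus : ℝ) := by
    refine (mass_single_le _ _).trans ?_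
    push_cast
    rw [abs_of_nonneg (Nat.cast_nonneg _)]
  linarith

/-- The constant in the invariance statement. -/
def C₂ : ℝ :=
  |S.C₀| * (2 * (S.genus : ℝ) + 1) + |S.C₁| / 2 + |S.C₀| * (3 * (S.genus : ℝ)) + |S.C₀| * |S.M| / 2

theorem abs_quad_add_prin_sub_le (D f : Pt →₀ ℤ) (hf : f ∈ S.Prin)
    (hD : Finsupp.degree D = (S.genus : ℤ)) (hDm : mass D ≤ 3 * (S.genus : ℝ)) :
    |quad S.k S.A (D + f) - quad S.k S.A D| ≤ S.C₂ := by
  have hC₀ : 0 ≤ S.C₀ := by
    have := S.ud f hf S.inf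
    exact (abs_nonneg _).trans this
  have hC₁ : 0 ≤ S.C₁ := (abs_nonneg _).trans (S.adj f hf)
  have key := abs_quad_add_sub_quad_le S.k_symm (S.genus : ℤ) S.A D f (S.c f) S.C₀ S.C₁
    S.degree_A hD (S.prin_deg f hf) (S.ud f hf) (by exact_mod_cast S.adj f hf)
  refine key.trans ?_
  unfold C₂
  rw [abs_of_nonneg hC₀, abs_of_nonneg hC₁]
  have hM : mass f ≤ |S.M| := (S.prin_mass f hf).trans (le_abs_self _)
  have h1 : S.C₀ * mass S.A ≤ S.C₀ * (2 * (S.genus : ℝ) + 1) :=
    mul_le_mul_of_nonneg_left S.mass_A_le hC₀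
  have h2 : S.C₀ * mass D ≤ S.C₀ * (3 * (S.genus : ℝ)) := mul_le_mul_of_nonneg_left hDm hC₀
  have h3 : S.C₀ * mass f ≤ S.C₀ * |S.M| := mul_le_mul_of_nonneg_left hM hC₀
  linarith

theorem abs_HH_add_sub_le (x y : G) :
    |S.HH (x + y) - quad S.k S.A (S.rep x + S.E y)| ≤ S.C₂ := by
  have hD : Finsupp.degree (S.rep x + S.E y) = (S.genus : ℤ) := by
    rw [map_add, S.degree_E, S.rep_deg, add_zero]
  have hDm : mass (S.rep x + S.E y) ≤ 3 * (S.genus : ℝ) := by
    refine (mass_add_le _ _).trans ?_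
    have := S.rep_mass x; have := S.mass_E_le y; linarith
  have := S.abs_quad_add_prin_sub_le _ _ (S.rep_add x y) hD hDm
  have e : S.rep x + S.E y + (S.rep (x + y) - (S.rep x + (S.rep y - single S.inf (S.genus : ℤ))))
      = S.rep (x + y) := by
    unfold E; abel
  rw [e] at this
  exact this

theorem abs_HH_sub_sub_le (x y : G) :
    |S.HH (x - y) - quad S.k S.A (S.rep x - S.E y)| ≤ S.C₂ := by
  have hD : Finsupp.degree (S.rep x - S.E y) = (S.genus : ℤ) := by
    rw [map_sub, S.degree_E, S.rep_deg, sub_zero]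
  have hDm : mass (S.rep x - S.E y) ≤ 3 * (S.genus : ℝ) := by
    refine (mass_sub_le _ _).trans ?_
    have := S.rep_mass x; have := S.mass_E_le y; linarith
  have := S.abs_quad_add_prin_sub_le _ _ (S.rep_sub x y) hD hDm
  have e : S.rep x - S.E y + (S.rep (x - y) - (S.rep x - (S.rep y - single S.inf (S.genus : ℤ))))
      = S.rep (x - y) := by
    unfold E; abel
  rw [e] at this
  exact this

/-- One-sided quasi-parallelogram law for `HH`. -/
theorem abs_HH_parallelogram_le (x y : G) :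
    |S.HH (x + y) + S.HH (x - y) - 2 * S.HH x + pairing S.k (S.E y) (S.E y)| ≤ 2 * S.C₂ := by
  have h1 := S.abs_HH_add_sub_le x y
  have h2 := S.abs_HH_sub_sub_le x y
  have h3 := quad_add_add_quad_sub S.k_symm S.A (S.rep x) (S.E y)
  have h3' : quad S.k S.A (S.rep x + S.E y) + quad S.k S.A (S.rep x - S.E y)
      = 2 * S.HH x - pairing S.k (S.E y) (S.E y) := h3
  rw [abs_le] at h1 h2 ⊢
  constructor <;> linarith [h1.1, h1.2, h2.1, h2.2]

theorem h_neg (x : G) : S.h (-x) = S.h x := by
  unfold h; rw [neg_neg]; ring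

/-- **The approximate parallelogram law** for the symmetrised height. -/
theorem abs_h_parallelogram_le (x y : G) :
    |S.h (x + y) + S.h (x - y) - 2 * (S.h x + S.h y)| ≤ 2 * |S.h 0| + 8 * S.C₂ := by
  have a1 := S.abs_HH_parallelogram_le x y
  have a2 := S.abs_HH_parallelogram_le (-x) y
  have b1 := S.abs_HH_parallelogram_le 0 y
  have b2 := S.abs_HH_parallelogram_le (-0) y
  have e1 : -x + y = -(x - y) := by abel
  have e2 : -x - y = -(x + y) := by abel
  rw [e1, e2] at a2
  simp only [neg_zero, zero_add, zero_sub] at b1 b2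
  have hy : S.h (-y) = S.h y := S.h_neg y
  have h0 : S.h 0 = S.HH 0 + S.HH 0 := by unfold h; rw [neg_zero]
  have hxy : S.h (x + y) = S.HH (x + y) + S.HH (-(x + y)) := rfl
  have hxy' : S.h (x - y) = S.HH (x - y) + S.HH (-(x - y)) := rfl
  have hx : S.h x = S.HH x + S.HH (-x) := rfl
  have hyy : S.h y = S.HH y + S.HH (-y) := rfl
  have habs := le_abs_self (S.h 0)
  have habs' := neg_abs_le (S.h 0)
  rw [abs_le] at a1 a2 b1 b2 ⊢
  constructor <;> linarith [a1.1, a1.2, a2.1, a2.2, b1.1, b1.2, b2.1, b2.2]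

/-- **Formal Mordell–Weil.** If `G / 2G` is finite, and `HH` dominates (up to a constant) a
nonnegative Northcott function `ν` composed with negation, then `G` is finitely generated. -/
theorem fg_of_northcott (hW : (nsmulAddMonoidHom (α := G) 2).range.FiniteIndex)
    (ν : G → ℝ) [Northcott ν] (hν : ∀ x, 0 ≤ ν x) (C₃ : ℝ)
    (hpos : ∀ x, ν (-x) - C₃ ≤ S.HH x) : AddGroup.FG G := by
  have hh : ∀ x, ν x - 2 * C₃ ≤ S.h x := fun x => by
    have h1 := hpos x
    have h2 := hpos (-x)
    rw [neg_neg] at h2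
    have := hν (-x)
    unfold h; linarith
  let h' : G → ℝ := fun x => S.h x + 2 * |C₃|
  have hC : ∀ x, 0 ≤ h' x := fun x => by
    have := hh x; have := hν x; have := le_abs_self C₃
    show 0 ≤ S.h x + 2 * |C₃|; linarith
  have : Northcott h' := ⟨fun b => by
    refine (Northcott.finite_le (h := ν) (b + 2 * |C₃|)).subset fun x hx => ?_
    have hx' : S.h x + 2 * |C₃| ≤ b := hx
    have := hh x; have := le_abs_self C₃; have := abs_nonneg C₃
    show ν x ≤ b + 2 * |C₃|; linarith⟩
  refine AddCommGroup.fg_of_descent' (h := h') (C := 2 * |S.h 0| + 8 * S.C₂ + 4 * |C₃|) hW hC ?_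
  intro x y
  have := S.abs_h_parallelogram_le x y
  have h3 := abs_nonneg C₃
  show |(S.h (x + y) + 2 * |C₃|) + (S.h (x - y) + 2 * |C₃|)
      - 2 * ((S.h x + 2 * |C₃|) + (S.h y + 2 * |C₃|))| ≤ _
  rw [abs_le] at this ⊢
  constructor <;> linarith [this.1, this.2]

end Setup

end

end Fermat.Agent.MW.Formal.DeltaPairing8
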